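import Fermat.Agent.ES.Cong.Transfer
import Fermat.Prelude.Def_GaloisRep_ComplexConjugation
import Fermat.Prelude.Def_ModularCurve_PeriodHomPair

/-!
# Complex conjugation on parabolic characters
-/

set_option autoImplicit false

open UpperHalfPlane CongruenceSubgroup
open scoped MatrixGroups ModularForm Manifold
open ModularCurve.Period

noncomputable section

namespace FermatAgent.ES

theorem embC_complexConjugation (x : AlgebraicClosure ℚ) :
    embC (complexConjugation x) = starRingEnd ℂ (embC x) :=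
  complexEmbedding_complexConjugation x

/-- Complex conjugation inverts roots of unity. -/
theorem complexConjugation_of_pow_eq_one {n : ℕ} [NeZero n] {t : AlgebraicClosure ℚ}
    (ht : t ^ n = 1) : complexConjugation t = t ^ (n - 1) := by
  refine embC.toRingHom.injective ?_
  show embC (complexConjugation t) = embC (t ^ (n - 1))
  rw [embC_complexConjugation, map_pow]
  have h1 : embC t ^ n = 1 := by rw [← map_pow, ht, map_one]
  rw [← Complex.inv_eq_conj (Complex.norm_eq_one_of_pow_eq_one h1 (NeZero.ne n))]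
  refine inv_eq_of_mul_eq_one_right ?_
  rw [← pow_succ', Nat.sub_add_cancel NeZero.one_le, h1]

theorem qm_J (M : ℕ) (τ : ℍ) : qm M (UpperHalfPlane.J • τ) = starRingEnd ℂ (qm M τ) := by
  rw [qm_eq, qm_eq, coe_J_smul, ← Complex.exp_conj]
  congr 1
  simp only [map_div₀, map_mul, Complex.conj_I, Complex.conj_ofReal, map_ofNat, map_natCast]
  ring

variable {N : ℕ} [NeZero N]

theorem hasExp_slash_J {k : ℕ} {M : ℕ} {v : ℍ → ℂ} {c : PowerSeries ℂ}
    (hc : HasExp M v c) :
    HasExp M (v ∣[(k : ℤ)] UpperHalfPlane.J)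
      (c.map ((starRingAut : ℂ ≃+* ℂ) : ℂ →+* ℂ)) := fun τ => by
  have h := Complex.hasSum_conj'.mpr (hc (UpperHalfPlane.J • τ))
  have e : (v ∣[(k : ℤ)] UpperHalfPlane.J) τ = starRingEnd ℂ (v (UpperHalfPlane.J • τ)) := by
    rw [ModularForm.slash_apply]
    simp
  rw [e]
  refine h.congr_fun fun e => ?_
  rw [PowerSeries.coeff_map, qm_J, map_mul, map_pow, Complex.conj_conj]
  rfl

omit [NeZero N] in
theorem IsTwist.slash_J {k : ℤ} {φ : Gamma0 N →* ℂˣ} {n : ℕ} [NeZero n] (hφn : φ ^ n = 1)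
    {v : ℍ → ℂ} (hv : IsTwist (Gamma0 N) k φ v) :
    IsTwist (Gamma0 N) k ((φ.comp (jConjGamma0 N))⁻¹) (v ∣[k] UpperHalfPlane.J) where
  mdiff := hv.mdiff.slash k _
  slash γ := by
    have hun : starRingEnd ℂ ((φ (jConjGamma0 N γ) : ℂˣ) : ℂ) =
        (((φ (jConjGamma0 N γ))⁻¹ : ℂˣ) : ℂ) := by
      rw [Units.val_inv_eq_inv_val, Complex.inv_eq_conj]
      refine Complex.norm_eq_one_of_pow_eq_one ?_ (NeZero.ne n)
      rw [← Units.val_pow_eq_pow_val, ← MonoidHom.pow_apply, hφn]
      simp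
    rw [ModularForm.SL_slash, ← SlashAction.slash_mul, Period.J_mul_eq, SlashAction.slash_mul,
      ← ModularForm.SL_slash, ← jConjGamma0_coe, hv.slash,
      show (fun τ => ((φ (jConjGamma0 N γ) : ℂˣ) : ℂ) * v τ) =
        ((φ (jConjGamma0 N γ) : ℂˣ) : ℂ) • v from rfl, ModularForm.smul_slash]
    funext τ
    simp only [UpperHalfPlane.sigma_J, Complex.conjCAE_apply, Pi.smul_apply, smul_eq_mul, hun]
    rfl
  bdd γ := by
    rw [ModularForm.SL_slash, ← SlashAction.slash_mul]
    refine hv.bdd_of_int _ fun a b => ?_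
    fin_cases a
    · exact ⟨-(γ 0 b), by simp [Matrix.mul_apply, Fin.sum_univ_two]⟩
    · exact ⟨γ 1 b, by simp [Matrix.mul_apply, Fin.sum_univ_two]⟩

/-- Complex conjugation acts on parabolic characters by `φ ↦ (φ ∘ ε)⁻¹`. -/
theorem galChar_complexConjugation {n : ℕ} [NeZero n] (φ : parGroup (Gamma0 N) n) :
    (galChar (goodLevel_Gamma0 N) n complexConjugation φ : Gamma0 N →* ℂˣ) =
      ((φ : Gamma0 N →* ℂˣ).comp (jConjGamma0 N))⁻¹ := by
  set hG := goodLevel_Gamma0 N
  set σ : ℂ ≃+* ℂ := starRingAut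
  rw [galChar_eq hG n (g := complexConjugation) (σ := σ)
    (fun x => (embC_complexConjugation x).symm), conjAut_apply]
  set ψ := ((φ : Gamma0 N →* ℂˣ).comp (jConjGamma0 N))⁻¹ with hψ
  obtain ⟨i, v, v', c, hv, hv0, hv', -, hc, hc'⟩ := conjChar_spec hG σ φ
  have hw := hv.slash_J φ.2.1
  have hce := hasExp_slash_J (k := 2 * i) hc
  have hmem : ψ ∈ parGroup (Gamma0 N) n := by
    refine ⟨MonoidHom.ext fun γ => ?_, fun γ hγ => ?_⟩
    · have := DFunLike.congr_fun φ.2.1 (jConjGamma0 N γ)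
      simp only [hψ, MonoidHom.pow_apply, MonoidHom.inv_apply, MonoidHom.comp_apply,
        MonoidHom.one_apply, inv_pow] at this ⊢
      rw [this, inv_one]
    · rw [hψ, MonoidHom.inv_apply, MonoidHom.comp_apply, φ.2.2, inv_one]
      rw [jConjGamma0_coe, jConjSL_coe, jConjMat_trace]
      exact hγ
  rw [conjChar_eq hG (φ' := ⟨ψ, hmem⟩) (IsConjTwist.mk_of hv hv0 hw hc hce)]

end FermatAgent.ES
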