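import Fermat.Agent.ES.Cong.Congruence

/-!
# The Galois action commutes with the Hecke operators
-/

set_option autoImplicit false

open UpperHalfPlane CongruenceSubgroup OnePoint
open scoped MatrixGroups ModularForm Manifold
open P2MW.S_ModularForm_heckeT_slash_eq_self_of_mem_Gamma0.ModularForm

noncomputable section

namespace FermatAgent.ES

variable {N : ℕ}

/-- The Hecke operator on characters: the transfer of `T_ℓ` or `U_ℓ`. -/
def heckeChar (N : ℕ) {ℓ : ℕ} (hℓ : ℓ.Prime) {A : Type*} [CommMonoid A] (φ : Gamma0 N →* A) :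
    Gamma0 N →* A :=
  haveI : Fact ℓ.Prime := ⟨hℓ⟩
  haveI : NeZero ℓ := ⟨hℓ.ne_zero⟩
  if h : ℓ ∣ N then charOp (Period.transferDataU h) φ else charOp (Period.transferDataT h) φ

/-- For `ℓ ∤ N` the Hecke operator is the transfer of `T_ℓ`. -/
theorem heckeChar_of_not_dvd {ℓ : ℕ} [NeZero ℓ] [hℓ : Fact ℓ.Prime] (hℓN : ¬ ℓ ∣ N)
    {A : Type*} [CommMonoid A]
    (φ : Gamma0 N →* A) :
    heckeChar N hℓ.out φ = charOp (Period.transferDataT hℓN) φ := by
  rw [heckeChar, dif_neg hℓN]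

/-- The Hecke operators preserve parabolic characters of exponent `n`. -/
theorem heckeChar_mem_parGroup {ℓ : ℕ} (hℓ : ℓ.Prime) {n : ℕ} {φ : Gamma0 N →* ℂˣ}
    (hφ : φ ∈ parGroup (Gamma0 N) n) : heckeChar N hℓ φ ∈ parGroup (Gamma0 N) n := by
  have : Fact ℓ.Prime := ⟨hℓ⟩
  have : NeZero ℓ := ⟨hℓ.ne_zero⟩
  unfold heckeChar
  split <;> exact charOp_mem_parGroup _ hφ

variable [NeZero N]

/-- The product of the translates of a series of period one. -/
def prodShift (ℓ : ℕ) [NeZero ℓ] (c : PowerSeries ℂ) : PowerSeries ℂ :=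
  ∏ j : ZMod ℓ, PowerSeries.rescale (zetaC ℓ ^ j.val) c

/-- The product of the translates `v ((τ + j) / ℓ)` has the series `prodShift`. -/
theorem hasExp_prodShift {ℓ : ℕ} [NeZero ℓ] {v : ℍ → ℂ} {c : PowerSeries ℂ} (hc : HasExp 1 v c) :
    HasExp ℓ (fun τ => ∏ j : ZMod ℓ, v (heckeMatrix ℓ j.val • τ)) (prodShift ℓ c) :=
  (HasExp.prod Finset.univ (F := fun (j : ZMod ℓ) τ => v (heckeMatrix ℓ j.val • τ))
    fun j _ => hasExp_shift (NeZero.ne ℓ) j.val hc).congr_fun fun τ => by rw [Finset.prod_apply]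

/-- `prodShift` commutes with automorphisms of the coefficients. -/
theorem map_prodShift {ℓ : ℕ} [NeZero ℓ] (σ : ℂ ≃+* ℂ) (c : PowerSeries ℂ) :
    (prodShift ℓ c).map (σ : ℂ →+* ℂ) = prodShift ℓ (c.map (σ : ℂ →+* ℂ)) := by
  obtain ⟨a, ha, hσ⟩ := exists_unit_exponent ℓ σ
  rw [prodShift, prodShift, map_prod]
  refine Fintype.prod_equiv (Units.mulLeft ha.unit) _ _ fun j => ?_
  have hz : σ (zetaC ℓ ^ j.val) = zetaC ℓ ^ ((ha.unit : ZMod ℓ) * j).val := by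
    rw [map_pow, hσ, ← pow_mul, IsUnit.unit_spec, ZMod.val_mul, ZMod.val_natCast,
      Nat.mod_mul_mod]
    exact (pow_mod_orderOf _ _).symm.trans (by rw [← (zetaC_isPrimitiveRoot ℓ).eq_orderOf])
  ext e
  simp only [PowerSeries.coeff_map, PowerSeries.coeff_rescale, map_mul, map_pow (σ : ℂ →+* ℂ),
    RingEquiv.coe_toRingHom, Units.mulLeft_apply, ← hz, map_pow]

/-- `prodShift` of a nonzero series is nonzero. -/
theorem prodShift_ne_zero {ℓ : ℕ} [NeZero ℓ] {c : PowerSeries ℂ} (hc : c ≠ 0) :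
    prodShift ℓ c ≠ 0 := by
  refine Finset.prod_ne_zero_iff.mpr fun j _ h => hc (PowerSeries.ext fun e => ?_)
  have h1 := congrArg (PowerSeries.coeff e) h
  rw [PowerSeries.coeff_rescale, map_zero] at h1
  rw [map_zero]
  exact (mul_eq_zero.mp h1).resolve_left (pow_ne_zero _ (pow_ne_zero _
    ((zetaC_isPrimitiveRoot ℓ).ne_zero (NeZero.ne ℓ))))

/-- The constant normalising the transfer of `T_ℓ`. -/
def transferConst (ℓ i : ℕ) : ℂ := ((ℓ : ℂ) ^ (((2 * i : ℕ) : ℤ) - 1))⁻¹ * (ℓ : ℂ) ^ ℓ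

omit [NeZero N] in
/-- The expansion of the normalised transfer of `U_ℓ`. -/
theorem hasExp_transferU {ℓ : ℕ} [hℓ : Fact ℓ.Prime] [NeZero ℓ] (hℓN : ℓ ∣ N) (i : ℕ)
    {v : ℍ → ℂ} {c : PowerSeries ℂ} (hc : HasExp 1 v c) :
    HasExp ℓ ((ℓ : ℂ) ^ ℓ • transferFun (Period.transferDataU hℓN) ((2 * i : ℕ) : ℤ) v)
      (prodShift ℓ c) := by
  have hℓC : (ℓ : ℂ) ≠ 0 := Nat.cast_ne_zero.mpr hℓ.out.ne_zero
  refine (hasExp_prodShift hc).congr_fun fun τ => ?_
  have e2 : ∀ j : ZMod ℓ, (v ∣[((2 * i : ℕ) : ℤ)] (Period.transferDataU hℓN).rep j) τ =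
      (ℓ : ℂ)⁻¹ * v (heckeMatrix ℓ j.val • τ) :=
    fun j => ModularForm.slash_heckeMatrix_apply _ hℓ.out.ne_zero j.val v τ
  simp only [Pi.smul_apply, smul_eq_mul, transferFun, Finset.prod_apply, e2,
    Finset.prod_mul_distrib, Finset.prod_const, Finset.card_univ, ZMod.card]
  rw [← mul_assoc, ← mul_pow, mul_inv_cancel₀ hℓC, one_pow, one_mul]

omit [NeZero N] in
/-- The expansion of the normalised transfer of `T_ℓ`. -/
theorem hasExp_transferT {ℓ : ℕ} [hℓ : Fact ℓ.Prime] [NeZero ℓ] (hℓN : ¬ ℓ ∣ N) (i : ℕ)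
    {v : ℍ → ℂ} {c : PowerSeries ℂ} (hc : HasExp 1 v c) :
    HasExp ℓ (transferConst ℓ i • transferFun (Period.transferDataT hℓN) ((2 * i : ℕ) : ℤ) v)
      (PowerSeries.expand ℓ hℓ.out.ne_zero (PowerSeries.expand ℓ hℓ.out.ne_zero c) *
        prodShift ℓ c) := by
  have hℓC : (ℓ : ℂ) ≠ 0 := Nat.cast_ne_zero.mpr hℓ.out.ne_zero
  have hd : HasExp ℓ (fun τ => v (heckeDiagMatrix ℓ • τ))
      (PowerSeries.expand ℓ hℓ.out.ne_zero (PowerSeries.expand ℓ hℓ.out.ne_zero c)) := by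
    have := (hasExp_diag hℓ.out.ne_zero hc).expand hℓ.out.ne_zero
    rwa [mul_one] at this
  refine (hd.mul (hasExp_prodShift hc)).congr_fun fun τ => ?_
  have e1 : (v ∣[((2 * i : ℕ) : ℤ)] (Period.transferDataT hℓN).rep ∞) τ =
      (ℓ : ℂ) ^ (((2 * i : ℕ) : ℤ) - 1) * v (heckeDiagMatrix ℓ • τ) :=
    ModularForm.slash_heckeDiagMatrix_apply _ hℓ.out.ne_zero v τ
  have e2 : ∀ j : ZMod ℓ, (v ∣[((2 * i : ℕ) : ℤ)] (Period.transferDataT hℓN).rep j) τ =
      (ℓ : ℂ)⁻¹ * v (heckeMatrix ℓ j.val • τ) :=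
    fun j => ModularForm.slash_heckeMatrix_apply _ hℓ.out.ne_zero j.val v τ
  simp only [Pi.smul_apply, smul_eq_mul, transferFun, Finset.prod_apply, Pi.mul_apply,
    transferConst]
  rw [prod_onePoint, e1]
  simp only [e2, Finset.prod_mul_distrib, Finset.prod_const, Finset.card_univ, ZMod.card, inv_pow]
  field_simp

/-- An operator on forms of period one described by a series of period `ℓ`. -/
theorem isConjTwist_of_transfer {ι : Type} [Fintype ι] (D : Period.TransferData (Gamma0 N) ι)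
    (hD : ∀ x i j, ∃ z : ℤ, (D.rep x : Matrix (Fin 2) (Fin 2) ℝ) i j = z)
    {ℓ : ℕ} [NeZero ℓ] (P : PowerSeries ℂ → PowerSeries ℂ) (C : ℕ → ℂ)
    (σ : ℂ ≃+* ℂ)
    (hP : ∀ i (v : ℍ → ℂ) c, HasExp 1 v c →
      HasExp ℓ (C i • transferFun D ((2 * i : ℕ) : ℤ) v) (P c))
    (hPmap : ∀ c, (P c).map (σ : ℂ →+* ℂ) = P (c.map (σ : ℂ →+* ℂ)))
    (hP0 : ∀ c, c ≠ 0 → P c ≠ 0) {n : ℕ} [NeZero n] (φ : parGroup (Gamma0 N) n) :
    IsConjTwist N (Gamma0 N) σ (charOp D (φ : Gamma0 N →* ℂˣ))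
      (charOp D (conjChar (goodLevel_Gamma0 N) σ φ : Gamma0 N →* ℂˣ)) := by
  set hG := goodLevel_Gamma0 N
  have hℓ := NeZero.ne ℓ
  obtain ⟨i, v, v', c, hv, hv0, hv', -, hc, hc'⟩ := conjChar_spec hG σ φ
  set φ' := conjChar hG σ φ
  have h12 : 12 * N ≠ 0 := NeZero.ne (12 * N)
  have hexp : ∀ {r : ℕ} (hr : r ≠ 0) {f : ℍ → ℂ} {d : PowerSeries ℂ}, HasExp 1 f d →
      HasExp r f (PowerSeries.expand r hr d) := fun {r} hr {f d} h => by
    have := h.expand hr; rwa [mul_one] at this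
  have hc1 := hasExp_one_twist hG.T_mem φ.2.2 hv
  have hc1' := hasExp_one_twist hG.T_mem φ'.2.2 hv'
  set c1 := qExpansion ((1 : ℕ) : ℝ) v
  have he : qExpansion ((1 : ℕ) : ℝ) v' = c1.map (σ : ℂ →+* ℂ) := by
    have h := (hexp h12 hc1').series_unique hc'
    rw [hc.series_unique (hexp h12 hc1), PowerSeries.map_expand] at h
    exact PowerSeries.ext fun e => by
      have := congrArg (PowerSeries.coeff (12 * N * e)) h
      rwa [PowerSeries.coeff_expand_mul, PowerSeries.coeff_expand_mul] at this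
  rw [he] at hc1'
  have hu := (hv.transfer D hD).smul (C i)
  have hu' := (hv'.transfer D hD).smul (C i)
  have hU := hasExp_one_twist hG.T_mem (isParChar_charOp D φ.2.2) hu
  have hU' := hasExp_one_twist hG.T_mem (isParChar_charOp D φ'.2.2) hu'
  set U := qExpansion ((1 : ℕ) : ℝ) (C i • transferFun D ((2 * i : ℕ) : ℤ) v)
  have hUe := (hexp hℓ hU).series_unique (hP i v _ hc1)
  have hmap : qExpansion ((1 : ℕ) : ℝ) (C i • transferFun D ((2 * i : ℕ) : ℤ) v') =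
      U.map (σ : ℂ →+* ℂ) := PowerSeries.ext fun e => by
    have h := congrArg (PowerSeries.coeff (ℓ * e)) ((hexp hℓ hU').series_unique (hP i v' _ hc1'))
    rw [PowerSeries.coeff_expand_mul, ← hPmap, ← hUe, PowerSeries.map_expand,
      PowerSeries.coeff_expand_mul] at h
    exact h
  rw [hmap] at hU'
  have hw : ((2 * i : ℕ) : ℤ) * (Fintype.card ι : ℤ) = ((2 * (i * Fintype.card ι) : ℕ) : ℤ) := by
    push_cast; ring
  rw [hw] at hu hu'
  refine IsConjTwist.mk_of hu (fun h => ?_) hu' (hexp h12 hU)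
    (by rw [PowerSeries.map_expand]; exact hexp h12 hU')
  have hc10 : c1 ≠ 0 := fun h0 => hv0 ((h0 ▸ hc1).eq_of_series HasExp.zero)
  refine hP0 c1 hc10 (hUe.symm.trans ?_)
  rw [show U = 0 from hU.series_unique (h ▸ HasExp.zero), map_zero]

/-- Conjugation of characters commutes with the Hecke operators. -/
theorem conjChar_heckeChar_eq {ℓ : ℕ} (hℓ : ℓ.Prime) (σ : ℂ ≃+* ℂ) {n : ℕ} [NeZero n]
    (φ : parGroup (Gamma0 N) n) :
    conjChar (goodLevel_Gamma0 N) σ ⟨heckeChar N hℓ φ.1, heckeChar_mem_parGroup hℓ φ.2⟩ =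
      ⟨heckeChar N hℓ (conjChar (goodLevel_Gamma0 N) σ φ).1,
        heckeChar_mem_parGroup hℓ (conjChar (goodLevel_Gamma0 N) σ φ).2⟩ := by
  have : Fact ℓ.Prime := ⟨hℓ⟩
  have : NeZero ℓ := ⟨hℓ.ne_zero⟩
  refine conjChar_eq _ ?_
  show IsConjTwist N (Gamma0 N) σ (heckeChar N hℓ φ.1) (heckeChar N hℓ _)
  unfold heckeChar
  by_cases h : ℓ ∣ N
  · rw [dif_pos h, dif_pos h]
    refine isConjTwist_of_transfer _ (fun x => heckeMatrix_int hℓ.ne_zero x.val) (ℓ := ℓ)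
      (prodShift ℓ) (fun _ => ((ℓ : ℂ) ^ ℓ)) σ (fun i v c hc => hasExp_transferU h i hc)
      (map_prodShift σ) (fun c => prodShift_ne_zero) φ
  · rw [dif_neg h, dif_neg h]
    refine isConjTwist_of_transfer _ (transferDataT_int h) (ℓ := ℓ)
      (fun c => PowerSeries.expand ℓ hℓ.ne_zero (PowerSeries.expand ℓ hℓ.ne_zero c) * prodShift ℓ c)
      (transferConst ℓ) σ (fun i v c hc => hasExp_transferT h i hc)
      (fun c => by rw [map_mul, PowerSeries.map_expand, PowerSeries.map_expand, map_prodShift])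
      (fun c hc => mul_ne_zero (fun h0 => hc (PowerSeries.ext fun e => by
        have := congrArg (PowerSeries.coeff (ℓ * (ℓ * e))) h0
        simpa [PowerSeries.coeff_expand_mul] using this)) (prodShift_ne_zero hc)) φ

/-- **Galois commutes with the Hecke operators.** -/
theorem galChar_heckeChar {ℓ : ℕ} (hℓ : ℓ.Prime) {n : ℕ} [NeZero n] (g : GQ)
    (φ : parGroup (Gamma0 N) n) :
    galChar (goodLevel_Gamma0 N) n g ⟨heckeChar N hℓ φ.1, heckeChar_mem_parGroup hℓ φ.2⟩ =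
      ⟨heckeChar N hℓ (galChar (goodLevel_Gamma0 N) n g φ).1,
        heckeChar_mem_parGroup hℓ (galChar (goodLevel_Gamma0 N) n g φ).2⟩ :=
  conjChar_heckeChar_eq hℓ (autC g) φ

end FermatAgent.ES
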